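import Fermat.Agent.S56.TD.Dual

/-!
# S56 / TD-COC : the cocycle of a deformation to `k[ε]`  (explicit `2 × 2` matrix algebra over `k[ε]`; Mathlib + `S56/Defs`).

`r₁ : GQ →* M2 k[ε]`, `r₁ σ = ρ̄ σ + ε b σ` (`ρ̄ = fst`, `b = snd` entrywise), `cocM r₁ σ = b σ * ρ̄ σ⁻¹`, `coc = toSl2 ∘ cocM`.
`r₁ (σ τ) = r₁ σ * r₁ τ` gives `b (σ τ) = ρ̄ σ * b τ + b σ * ρ̄ τ`, i.e. `cocM (σ τ) = cocM σ + ρ̄ σ * cocM τ * ρ̄ σ⁻¹`.
`det (r₁ σ) = det ρ̄ σ * (1 + ε tr (cocM σ))`.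
`(1 + ε m) r₁ (1 - ε m)` has cochain `cocM σ + m - ρ̄ σ m ρ̄ σ⁻¹`.
-/

set_option autoImplicit false
set_option linter.unusedSectionVars false
set_option linter.unusedSimpArgs false

namespace Fermat.Agent.S56

open CFT (levS levAll decomp Z1 B1 d12 d01)

section Mat

variable {k : Type} [Field k]

lemma map_fst_mul (X Y : M2 (DualNumber k)) :
    (X * Y).map TrivSqZeroExt.fst = X.map TrivSqZeroExt.fst * Y.map TrivSqZeroExt.fst := by
  ext i j
  simp [Matrix.mul_apply, Fin.sum_univ_two]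

lemma map_snd_mul (X Y : M2 (DualNumber k)) :
    (X * Y).map TrivSqZeroExt.snd =
      X.map TrivSqZeroExt.fst * Y.map TrivSqZeroExt.snd +
        X.map TrivSqZeroExt.snd * Y.map TrivSqZeroExt.fst := by
  ext i j
  simp [Matrix.mul_apply, Fin.sum_univ_two]
  ring

lemma map_fst_one : (1 : M2 (DualNumber k)).map TrivSqZeroExt.fst = 1 := by
  ext i j
  by_cases h : i = j <;> simp [Matrix.one_apply, h]

lemma map_snd_one : (1 : M2 (DualNumber k)).map TrivSqZeroExt.snd = 0 := by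
  ext i j
  by_cases h : i = j <;> simp [Matrix.one_apply, h]

lemma dual_ext {X Y : M2 (DualNumber k)} (h1 : X.map TrivSqZeroExt.fst = Y.map TrivSqZeroExt.fst)
    (h2 : X.map TrivSqZeroExt.snd = Y.map TrivSqZeroExt.snd) : X = Y := by
  ext i j
  · exact congrFun (congrFun h1 i) j
  · exact congrFun (congrFun h2 i) j

lemma map_fst_map_inl (m : M2 k) :
    (m.map (TrivSqZeroExt.inl : k → DualNumber k)).map TrivSqZeroExt.fst = m := by
  ext i j; simp

lemma map_snd_map_inl (m : M2 k) :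
    (m.map (TrivSqZeroExt.inl : k → DualNumber k)).map TrivSqZeroExt.snd = 0 := by
  ext i j; simp

lemma map_fst_map_inr (m : M2 k) :
    (m.map (TrivSqZeroExt.inr : k → DualNumber k)).map TrivSqZeroExt.fst = 0 := by
  ext i j; simp

lemma map_snd_map_inr (m : M2 k) :
    (m.map (TrivSqZeroExt.inr : k → DualNumber k)).map TrivSqZeroExt.snd = m := by
  ext i j; simp

lemma map_fst_add (X Y : M2 (DualNumber k)) :
    (X + Y).map TrivSqZeroExt.fst = X.map TrivSqZeroExt.fst + Y.map TrivSqZeroExt.fst := by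
  ext i j; simp

lemma map_snd_add (X Y : M2 (DualNumber k)) :
    (X + Y).map TrivSqZeroExt.snd = X.map TrivSqZeroExt.snd + Y.map TrivSqZeroExt.snd := by
  ext i j; simp

end Mat

variable {k : Type} [Field k] (h2 : (2 : k) ≠ 0) {rbar : GQ →* M2 k}

lemma toSl2_coe (m : M2 k) : ((toSl2 h2 m : sl2 k) : M2 k) = m - (m.trace * (2 : k)⁻¹) • (1 : M2 k) := by
  simp [toSl2, mul_smul]

lemma toSl2_of_mem {m : M2 k} (hm : m ∈ sl2 k) : toSl2 h2 m = ⟨m, hm⟩ := by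
  apply Subtype.ext
  rw [toSl2_coe, (mem_sl2 m).mp hm, zero_mul, zero_smul, sub_zero]

lemma rbar_mul_inv (rbar : GQ →* M2 k) (g : GQ) : rbar g * rbar g⁻¹ = 1 := by
  rw [← map_mul, mul_inv_cancel, map_one]

lemma rbar_inv_mul (rbar : GQ →* M2 k) (g : GQ) : rbar g⁻¹ * rbar g = 1 := by
  rw [← map_mul, inv_mul_cancel, map_one]

lemma trace_adFull (rbar : GQ →* M2 k) (g : GQ) (m : M2 k) : (adFull rbar g m).trace = m.trace := by
  rw [adFull_apply, Matrix.trace_mul_comm, ← mul_assoc, rbar_inv_mul, one_mul]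

/-- `toSl2` is equivariant -/
lemma toSl2_adFull (g : GQ) (m : M2 k) : toSl2 h2 (adFull rbar g m) = adRep rbar g (toSl2 h2 m) := by
  apply Subtype.ext
  rw [adRep_apply_coe, toSl2_coe, toSl2_coe, trace_adFull, adFull_apply, mul_sub, sub_mul,
    Matrix.mul_smul, Matrix.smul_mul, mul_one, rbar_mul_inv]

theorem cocM_mul {r₁ : GQ →* M2 (DualNumber k)} (h : IsLift rbar r₁) (σ τ : GQ) :
    cocM r₁ (σ * τ) = cocM r₁ σ + rbar σ * cocM r₁ τ * rbar σ⁻¹ := by
  unfold cocM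
  rw [map_mul, map_snd_mul, h, h, h, h, h, mul_inv_rev, map_mul, add_mul, add_comm]
  congr 1
  · rw [mul_assoc, ← mul_assoc (rbar τ), rbar_mul_inv, one_mul]
  · simp only [mul_assoc]

/-- `r₁ σ = (1 + ε c σ) ρ̄ σ` -/
theorem snd_eq_cocM_mul {r₁ : GQ →* M2 (DualNumber k)} (h : IsLift rbar r₁) (σ : GQ) :
    (r₁ σ).map TrivSqZeroExt.snd = cocM r₁ σ * rbar σ := by
  unfold cocM
  rw [h, mul_assoc, rbar_inv_mul, mul_one]

theorem det_eq {r₁ : GQ →* M2 (DualNumber k)} (h : IsLift rbar r₁) (σ : GQ) :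
    (r₁ σ).det = TrivSqZeroExt.inl (rbar σ).det + TrivSqZeroExt.inr ((rbar σ).det * (cocM r₁ σ).trace) := by
  have hf : ∀ i j, (r₁ σ i j).fst = rbar σ i j := fun i j => congrFun (congrFun (h σ) i) j
  have hs : ∀ i j, (r₁ σ i j).snd = (cocM r₁ σ * rbar σ) i j :=
    fun i j => congrFun (congrFun (snd_eq_cocM_mul h σ) i) j
  rw [Matrix.det_fin_two, Matrix.det_fin_two, Matrix.trace_fin_two]
  apply TrivSqZeroExt.ext
  · simp [hf]
  · simp [hf, hs, Matrix.mul_apply, Fin.sum_univ_two]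
    ring

lemma det_rbar_ne_zero (rbar : GQ →* M2 k) (σ : GQ) : (rbar σ).det ≠ 0 := by
  intro h0
  have := congrArg Matrix.det (rbar_mul_inv rbar σ)
  rw [Matrix.det_mul, h0, zero_mul, Matrix.det_one] at this
  exact zero_ne_one this

theorem trace_cocM_of_det {r₁ : GQ →* M2 (DualNumber k)} (h : IsLift rbar r₁)
    (hdet : ∀ σ, (r₁ σ).det = TrivSqZeroExt.inl (rbar σ).det) (σ : GQ) :
    (cocM r₁ σ).trace = 0 := by
  have h1 := det_eq h σ
  rw [hdet σ] at h1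
  have h3 := congrArg TrivSqZeroExt.snd h1
  simp only [TrivSqZeroExt.snd_inl, TrivSqZeroExt.snd_add, TrivSqZeroExt.snd_inr, zero_add] at h3
  exact (mul_eq_zero.mp h3.symm).resolve_left (det_rbar_ne_zero rbar σ)

/-- if the determinant is constant the cochain has trace `0` -/
theorem coc_coe_of_det {r₁ : GQ →* M2 (DualNumber k)} (h : IsLift rbar r₁)
    (hdet : ∀ σ, (r₁ σ).det = TrivSqZeroExt.inl (rbar σ).det) (σ : GQ) :
    ((coc h2 r₁ σ : sl2 k) : M2 k) = cocM r₁ σ := by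
  rw [coc, toSl2_coe, trace_cocM_of_det h hdet σ, zero_mul, zero_smul, sub_zero]

theorem coc_mul {r₁ : GQ →* M2 (DualNumber k)} (h : IsLift rbar r₁) (σ τ : GQ) :
    coc h2 r₁ (σ * τ) = coc h2 r₁ σ + adRep rbar σ (coc h2 r₁ τ) := by
  rw [coc, coc, coc, cocM_mul h, map_add, ← toSl2_adFull, adFull_apply]

theorem d12_coc {r₁ : GQ →* M2 (DualNumber k)} (h : IsLift rbar r₁) :
    d12 (adRep rbar) (coc h2 r₁) = 0 := by
  funext g
  show adRep rbar g.1 (coc h2 r₁ g.2) - coc h2 r₁ (g.1 * g.2) + coc h2 r₁ g.1 = 0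
  rw [coc_mul h2 h]
  abel

/-- [TD-COC-Z] -/
theorem coc_mem_Z1 (𝒰 : CFT.Levels GQ) {r₁ : GQ →* M2 (DualNumber k)} (h : IsLift rbar r₁)
    (hU : ∃ U ∈ 𝒰.carrier, ∀ s ∈ U, r₁ s = 1) : coc h2 r₁ ∈ Z1 𝒰 (adRep rbar) := by
  refine ⟨d12_coc h2 h, ?_⟩
  obtain ⟨U, hU, hs⟩ := hU
  refine ⟨U, hU, fun g s hsU => ?_⟩
  have e1 : r₁ (g * s) = r₁ g := by rw [map_mul, hs s hsU, mul_one]
  have e2 : r₁ (g * s)⁻¹ = r₁ g⁻¹ := by
    rw [mul_inv_rev, map_mul, hs s⁻¹ (U.inv_mem hsU), one_mul]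
  rw [coc, coc, cocM, cocM, e1, e2]

/-- the matrix `1 + ε m`. -/
noncomputable def onePlus (m : M2 k) : M2 (DualNumber k) :=
  1 + m.map (TrivSqZeroExt.inr : k → DualNumber k)

lemma map_fst_onePlus (m : M2 k) : (onePlus m).map TrivSqZeroExt.fst = 1 := by
  rw [onePlus, map_fst_add, map_fst_one, map_fst_map_inr, add_zero]

lemma map_snd_onePlus (m : M2 k) : (onePlus m).map TrivSqZeroExt.snd = m := by
  rw [onePlus, map_snd_add, map_snd_one, map_snd_map_inr, zero_add]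

lemma onePlus_mul_neg (m : M2 k) : onePlus m * onePlus (-m) = 1 := by
  apply dual_ext
  · rw [map_fst_mul, map_fst_onePlus, map_fst_onePlus, map_fst_one, one_mul]
  · rw [map_snd_mul, map_fst_onePlus, map_fst_onePlus, map_snd_onePlus, map_snd_onePlus,
      map_snd_one, one_mul, mul_one, neg_add_cancel]

/-- [TD-COC-B] cohomologous cocycles + same determinant ⟹ conjugate -/
theorem exists_conj_of_sub_mem_B1 {r₁ r₁' : GQ →* M2 (DualNumber k)} (h : IsLift rbar r₁)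
    (h' : IsLift rbar r₁') (hdet : ∀ σ, (r₁ σ).det = TrivSqZeroExt.inl (rbar σ).det)
    (hdet' : ∀ σ, (r₁' σ).det = TrivSqZeroExt.inl (rbar σ).det)
    (hB : coc h2 r₁ - coc h2 r₁' ∈ B1 (adRep rbar)) :
    ∃ M : (M2 (DualNumber k))ˣ, ∀ σ, (M : M2 (DualNumber k)) * r₁ σ = r₁' σ * (M : M2 (DualNumber k)) := by
  obtain ⟨m, hm⟩ := hB
  refine ⟨⟨onePlus (m : M2 k), onePlus (-(m : M2 k)), onePlus_mul_neg _, ?_⟩, fun σ => ?_⟩
  · have := onePlus_mul_neg (-(m : M2 k))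
    rwa [neg_neg] at this
  · show onePlus (m : M2 k) * r₁ σ = r₁' σ * onePlus (m : M2 k)
    have h1 : cocM r₁ σ - cocM r₁' σ = rbar σ * (m : M2 k) * rbar σ⁻¹ - (m : M2 k) := by
      have := congrArg (fun x : sl2 k => (x : M2 k)) (congrFun hm σ)
      simp only [CFT.d01_apply, Pi.sub_apply, Submodule.coe_sub, adRep_apply_coe,
        coc_coe_of_det h2 h hdet, coc_coe_of_det h2 h' hdet'] at this
      exact this.symm
    apply dual_ext
    · rw [map_fst_mul, map_fst_mul, map_fst_onePlus, h, h', one_mul, mul_one]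
    · rw [map_snd_mul, map_snd_mul, map_fst_onePlus, map_snd_onePlus, h, h', one_mul, mul_one,
        snd_eq_cocM_mul h, snd_eq_cocM_mul h']
      have h3 : cocM r₁ σ = cocM r₁' σ + rbar σ * (m : M2 k) * rbar σ⁻¹ - (m : M2 k) := by
        rw [add_sub_assoc, ← h1]; abel
      rw [h3, sub_mul, add_mul, mul_assoc (rbar σ * (m : M2 k)), rbar_inv_mul, mul_one]
      abel

/-- [TD-COC-C] conjugation by `M ≡ 1 mod ε` changes the cocycle by a coboundary
(`m = snd M`; sign: `coc r₁' = coc r₁ - ∂ (toSl2 m)`). -/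
theorem coc_conj {r₁ r₁' : GQ →* M2 (DualNumber k)} (h : IsLift rbar r₁)
    (M : M2 (DualNumber k)) (hM : M.map TrivSqZeroExt.fst = 1)
    (hc : ∀ σ, M * r₁ σ = r₁' σ * M) :
    coc h2 r₁' = coc h2 r₁ - d01 (adRep rbar) (toSl2 h2 (M.map TrivSqZeroExt.snd)) := by
  have h' : IsLift rbar r₁' := by
    intro σ
    have := congrArg (fun X : M2 (DualNumber k) => X.map TrivSqZeroExt.fst) (hc σ)
    simp only [map_fst_mul, hM, one_mul, mul_one, h σ] at this
    exact this.symm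
  funext σ
  set m := M.map TrivSqZeroExt.snd with hm
  have h1 : cocM r₁' σ = cocM r₁ σ - (adFull rbar σ m - m) := by
    have := congrArg (fun X : M2 (DualNumber k) => X.map TrivSqZeroExt.snd) (hc σ)
    simp only [map_snd_mul, hM, one_mul, mul_one, h σ, h' σ, ← hm] at this
    have e : (r₁' σ).map TrivSqZeroExt.snd = (r₁ σ).map TrivSqZeroExt.snd + m * rbar σ - rbar σ * m := by
      rw [this]; abel
    rw [cocM, e, h', cocM, h, adFull_apply, sub_mul, add_mul, mul_assoc m, rbar_mul_inv, mul_one]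
    abel
  rw [Pi.sub_apply, CFT.d01_apply, coc, coc, h1, map_sub, map_sub, toSl2_adFull]

/-- [TD-COC-S] -/
theorem coc_scale (a : k) (r₁ : GQ →* M2 (DualNumber k)) :
    coc h2 (S53.mapRep (scaleHom a : DualNumber k →+* DualNumber k) r₁) = a • coc h2 r₁ := by
  funext σ
  rw [Pi.smul_apply, coc, coc, ← map_smul]
  congr 1
  unfold cocM
  have e1 : ∀ τ, (S53.mapRep (scaleHom a : DualNumber k →+* DualNumber k) r₁ τ).map
      TrivSqZeroExt.fst = (r₁ τ).map TrivSqZeroExt.fst := by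
    intro τ; ext i j; simp
  have e2 : ∀ τ, (S53.mapRep (scaleHom a : DualNumber k →+* DualNumber k) r₁ τ).map
      TrivSqZeroExt.snd = a • (r₁ τ).map TrivSqZeroExt.snd := by
    intro τ; ext i j; simp
  rw [e1, e2, Matrix.smul_mul]

theorem isLift_scale (a : k) {r₁ : GQ →* M2 (DualNumber k)} (h : IsLift rbar r₁) :
    IsLift rbar (S53.mapRep (scaleHom a : DualNumber k →+* DualNumber k) r₁) := by
  intro σ
  rw [← h σ]
  ext i j
  simp

/-- conjugating `rbar` by `g₀ ∈ GL₂(k)`: transport of cocycles (used to put `rbar|_{D_v}` in a normal form) -/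
theorem cocM_conj_const (g₀ : (M2 k)ˣ) (r₁ : GQ →* M2 (DualNumber k)) (σ : GQ) :
    cocM (S53.conjRep (Units.map (TrivSqZeroExt.inlHom k k).mapMatrix.toMonoidHom g₀) r₁) σ =
      (g₀ : M2 k) * cocM r₁ σ * ((g₀⁻¹ : (M2 k)ˣ) : M2 k) := by
  have e : ∀ τ, S53.conjRep (Units.map (TrivSqZeroExt.inlHom k k).mapMatrix.toMonoidHom g₀) r₁ τ =
      (g₀ : M2 k).map (TrivSqZeroExt.inl : k → DualNumber k) * r₁ τ *
        ((g₀⁻¹ : (M2 k)ˣ) : M2 k).map (TrivSqZeroExt.inl : k → DualNumber k) := by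
    intro τ
    rw [S53.conjRep_apply, ← map_inv]
    rfl
  unfold cocM
  rw [e, e]
  simp only [map_fst_mul, map_snd_mul, map_fst_map_inl, map_snd_map_inl, mul_zero, zero_mul,
    add_zero, zero_add]
  have hg : ((g₀⁻¹ : (M2 k)ˣ) : M2 k) * (g₀ : M2 k) = 1 := Units.inv_mul g₀
  calc (g₀ : M2 k) * (r₁ σ).map TrivSqZeroExt.snd * ((g₀⁻¹ : (M2 k)ˣ) : M2 k) *
        ((g₀ : M2 k) * (r₁ σ⁻¹).map TrivSqZeroExt.fst * ((g₀⁻¹ : (M2 k)ˣ) : M2 k))
      = (g₀ : M2 k) * (r₁ σ).map TrivSqZeroExt.snd * (((g₀⁻¹ : (M2 k)ˣ) : M2 k) * (g₀ : M2 k)) *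
        (r₁ σ⁻¹).map TrivSqZeroExt.fst * ((g₀⁻¹ : (M2 k)ˣ) : M2 k) := by simp only [mul_assoc]
    _ = _ := by rw [hg, mul_one]; simp only [mul_assoc]

end Fermat.Agent.S56
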