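import Mathlib

/-!
# S56 / TD-ALG-A : many maps to `k[ε]`

`R` noetherian local `𝒪`-algebra with residue field `k = 𝒪/m_𝒪`, `J := m_R² + m_𝒪 R`, `T := R/J`
(a finite `k`-algebra), `π̄ : T → k`, `𝔫 := ker π̄`, `d := dim_k 𝔫`.  Lifts `x_i ∈ m_R` of a basis of `𝔫`
generate `m_R` modulo `J`, and for `a ∈ k^d` the map `y ↦ (π y, λ_a (y mod J))` is an `𝒪`-algebra map,
where `λ_a : T → k` is the linear form with `λ_a 1 = 0`, `λ_a (x_i) = a_i`.
-/

set_option autoImplicit false

open IsLocalRing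

namespace Fermat.Agent.S56

section core

variable {𝒪 : Type} [CommRing 𝒪] [IsLocalRing 𝒪] {R : Type} [CommRing R] [Algebra 𝒪 R]

/-- an `𝒪`-algebra map to `k[ε]` from an `𝒪`-algebra map `π` to `k` and a "`π`-derivation". -/
noncomputable def dualHom (π : R →ₐ[𝒪] ResidueField 𝒪) (l : R →ₗ[𝒪] ResidueField 𝒪) (h1 : l 1 = 0)
    (h2 : ∀ u u', π u = 0 → π u' = 0 → l (u * u') = 0) :
    R →ₐ[𝒪] DualNumber (ResidueField 𝒪) :=
  have hmul : ∀ y y', l (y * y') = π y * l y' + π y' * l y := by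
    intro y y'
    obtain ⟨c, hc⟩ := residue_surjective (π y)
    obtain ⟨c', hc'⟩ := residue_surjective (π y')
    have hπ : ∀ (z : R) (e : 𝒪), residue 𝒪 e = π z → π (z - e • 1) = 0 := by
      intro z e he
      rw [map_sub, map_smul, map_one, Algebra.smul_def, mul_one, ← he, sub_eq_zero]
      rfl
    have h3 := h2 _ _ (hπ y c hc) (hπ y' c' hc')
    have h4 : (y - c • 1) * (y' - c' • 1) = y * y' - c' • y - c • y' + (c * c') • (1 : R) := by
      simp only [Algebra.smul_def, mul_one, map_mul]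
      ring
    rw [h4, map_add, map_sub, map_sub, map_smul, map_smul, map_smul, h1, smul_zero, add_zero,
      Algebra.smul_def, Algebra.smul_def] at h3
    have e1 : algebraMap 𝒪 (ResidueField 𝒪) c = π y := hc
    have e2 : algebraMap 𝒪 (ResidueField 𝒪) c' = π y' := hc'
    rw [e1, e2] at h3
    linear_combination h3
  { toFun := fun y => TrivSqZeroExt.inl (π y) + TrivSqZeroExt.inr (l y)
    map_one' := by
      rw [map_one, h1]
      simp
    map_mul' := by
      intro y y'
      apply TrivSqZeroExt.ext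
      · simp
      · simp [hmul, mul_comm]
    map_zero' := by simp
    map_add' := by
      intro y y'
      apply TrivSqZeroExt.ext
      · simp
      · simp
    commutes' := by
      intro c
      have h3 : l (algebraMap 𝒪 R c) = 0 := by
        rw [Algebra.algebraMap_eq_smul_one, map_smul, h1, smul_zero]
      rw [h3, AlgHom.commutes]
      simp
      rfl }

@[simp] theorem fst_dualHom (π : R →ₐ[𝒪] ResidueField 𝒪) (l : R →ₗ[𝒪] ResidueField 𝒪) (h1 : l 1 = 0)
    (h2 : ∀ u u', π u = 0 → π u' = 0 → l (u * u') = 0) (y : R) :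
    (dualHom π l h1 h2 y).fst = π y := by
  show (TrivSqZeroExt.inl (π y) + TrivSqZeroExt.inr (l y) : DualNumber (ResidueField 𝒪)).fst = _
  simp

@[simp] theorem snd_dualHom (π : R →ₐ[𝒪] ResidueField 𝒪) (l : R →ₗ[𝒪] ResidueField 𝒪) (h1 : l 1 = 0)
    (h2 : ∀ u u', π u = 0 → π u' = 0 → l (u * u') = 0) (y : R) :
    (dualHom π l h1 h2 y).snd = l y := by
  show (TrivSqZeroExt.inl (π y) + TrivSqZeroExt.inr (l y) : DualNumber (ResidueField 𝒪)).snd = _
  simp

end core

section loc

variable {𝒪 : Type} [CommRing 𝒪] [IsLocalRing 𝒪] (R : Type) [CommRing R] [IsLocalRing R]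
  [Algebra 𝒪 R] [IsLocalHom (algebraMap 𝒪 R)]

theorem bijective_residueField_map (hres : Function.Surjective (residue R ∘ algebraMap 𝒪 R)) :
    Function.Bijective (ResidueField.map (algebraMap 𝒪 R)) := by
  refine ⟨(ResidueField.map (algebraMap 𝒪 R)).injective, fun z => ?_⟩
  obtain ⟨c, hc⟩ := hres z
  exact ⟨residue 𝒪 c, hc⟩

/-- the residue map `R → k`. -/
theorem exists_resHom (hres : Function.Surjective (residue R ∘ algebraMap 𝒪 R)) :
    ∃ π : R →ₐ[𝒪] ResidueField 𝒪, ∀ y, π y = 0 ↔ y ∈ maximalIdeal R := by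
  let e := RingEquiv.ofBijective _ (bijective_residueField_map R hres)
  refine ⟨{ (e.symm : ResidueField R →+* ResidueField 𝒪).comp (residue R) with
      commutes' := fun c => ?_ }, fun y => ?_⟩
  · show e.symm (residue R (algebraMap 𝒪 R c)) = residue 𝒪 c
    rw [RingEquiv.symm_apply_eq]
    rfl
  · show e.symm (residue R y) = 0 ↔ _
    rw [map_eq_zero_iff _ e.symm.injective, residue_eq_zero_iff]

variable {R}

omit [IsLocalHom (algebraMap 𝒪 R)] in
theorem fst_eq_zero_of_mem (φ : R →ₐ[𝒪] DualNumber (ResidueField 𝒪)) {y : R}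
    (hy : y ∈ maximalIdeal R) : (φ y).fst = 0 := by
  let g : R →ₐ[𝒪] ResidueField 𝒪 :=
    (TrivSqZeroExt.fstHom 𝒪 (ResidueField 𝒪) (ResidueField 𝒪)).comp φ
  have hg : Function.Surjective g.toRingHom := fun z => by
    obtain ⟨c, rfl⟩ := residue_surjective z
    exact ⟨algebraMap 𝒪 R c, g.commutes c⟩
  have hmax : (RingHom.ker g.toRingHom).IsMaximal := RingHom.ker_isMaximal_of_surjective _ hg
  have h : y ∈ RingHom.ker g.toRingHom := (IsLocalRing.eq_maximalIdeal hmax) ▸ hy
  exact h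

omit [IsLocalHom (algebraMap 𝒪 R)] in
theorem le_ker_of_algHom (φ : R →ₐ[𝒪] DualNumber (ResidueField 𝒪)) :
    maximalIdeal R ^ 2 ⊔ (maximalIdeal 𝒪).map (algebraMap 𝒪 R) ≤ RingHom.ker φ.toRingHom := by
  refine sup_le ?_ ?_
  · rw [pow_two, Ideal.mul_le]
    intro y hy y' hy'
    show φ (y * y') = 0
    rw [map_mul]
    apply TrivSqZeroExt.ext
    · simp [fst_eq_zero_of_mem φ hy]
    · simp [fst_eq_zero_of_mem φ hy, fst_eq_zero_of_mem φ hy']
  · rw [Ideal.map_le_iff_le_comap]
    intro c hc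
    show φ (algebraMap 𝒪 R c) = 0
    rw [φ.commutes]
    show TrivSqZeroExt.inl (residue 𝒪 c) = 0
    rw [(residue_eq_zero_iff c).2 hc, TrivSqZeroExt.inl_zero]

end loc

/-- linear algebra: an augmented finite dimensional vector space. -/
theorem exists_basis_ker_augmentation {k T : Type*} [Field k] [AddCommGroup T] [Module k T]
    [FiniteDimensional k T] (one : T) (p : T →ₗ[k] k) (hp : p one = 1) :
    ∃ (d : ℕ) (b : Fin d → T), (∀ i, p (b i) = 0) ∧
      (∀ t, p t = 0 → t ∈ Submodule.span k (Set.range b)) ∧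
      ∀ a : Fin d → k, ∃ l : T →ₗ[k] k, l one = 0 ∧ ∀ i, l (b i) = a i := by
  let bb := Module.finBasis k (LinearMap.ker p)
  let proj : T →ₗ[k] LinearMap.ker p :=
    LinearMap.codRestrict (LinearMap.ker p) (LinearMap.id - (LinearMap.toSpanSingleton k T one) ∘ₗ p)
      (fun t => by
        rw [LinearMap.mem_ker]
        simp [hp])
  have hproj : ∀ t : LinearMap.ker p, proj (t : T) = t := by
    intro t
    apply Subtype.ext
    have : p (t : T) = 0 := t.2
    simp [proj, this]
  refine ⟨_, fun i => (bb i : T), fun i => (bb i).2, fun t ht => ?_, fun a => ?_⟩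
  · have h1 : (⟨t, ht⟩ : LinearMap.ker p) ∈ Submodule.span k (Set.range bb) := by
      rw [bb.span_eq]
      exact Submodule.mem_top
    have h2 := Submodule.mem_map_of_mem (f := (LinearMap.ker p).subtype) h1
    rw [Submodule.map_span, ← Set.range_comp] at h2
    exact h2
  · refine ⟨(bb.constr k a) ∘ₗ proj, ?_, fun i => ?_⟩
    · have : proj one = 0 := by
        apply Subtype.ext
        simp [proj, hp]
      rw [LinearMap.comp_apply, this, map_zero]
    · rw [LinearMap.comp_apply, hproj, Module.Basis.constr_basis]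

variable {𝒪 : Type} [CommRing 𝒪] [IsDomain 𝒪] [IsDiscreteValuationRing 𝒪]
  [IsAdicComplete (maximalIdeal 𝒪) 𝒪] [Finite (ResidueField 𝒪)]
  (R : Type) [CommRing R] [IsLocalRing R] [IsNoetherianRing R]
  [IsAdicComplete (maximalIdeal R) R] [Algebra 𝒪 R] [IsLocalHom (algebraMap 𝒪 R)]

/-- [TD-ALG-A] -/
theorem exists_gens_card_le (hres : Function.Surjective (residue R ∘ algebraMap 𝒪 R)) :
    ∃ (d : ℕ) (x : Fin d → R), (∀ i, x i ∈ maximalIdeal R) ∧
      maximalIdeal R ≤ Ideal.span (Set.range x) ⊔ maximalIdeal R ^ 2 ⊔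
        (maximalIdeal 𝒪).map (algebraMap 𝒪 R) ∧
      Finite (R →ₐ[𝒪] DualNumber (ResidueField 𝒪)) ∧
      Nat.card (ResidueField 𝒪) ^ d ≤ Nat.card (R →ₐ[𝒪] DualNumber (ResidueField 𝒪)) := by
  classical
  obtain ⟨π, hπ⟩ := exists_resHom (𝒪 := 𝒪) R hres
  set J : Ideal R := maximalIdeal R ^ 2 ⊔ (maximalIdeal 𝒪).map (algebraMap 𝒪 R) with hJ
  -- finiteness of `T = R ⧸ J`
  have hfinκ : Finite (R ⧸ maximalIdeal R) :=
    Finite.of_surjective _ (bijective_residueField_map R hres).2
  have hfin2 : Finite (R ⧸ maximalIdeal R ^ 2) :=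
    Ideal.finite_quotient_pow (IsNoetherian.noetherian (maximalIdeal R)) 2
  have hfinT : Finite (R ⧸ J) :=
    Finite.of_surjective _ (Ideal.Quotient.factor_surjective (le_sup_left : maximalIdeal R ^ 2 ≤ J))
  have hfinD : Finite (DualNumber (ResidueField 𝒪)) :=
    inferInstanceAs (Finite (ResidueField 𝒪 × ResidueField 𝒪))
  -- finiteness of the set of algebra maps
  have hfinHom : Finite (R →ₐ[𝒪] DualNumber (ResidueField 𝒪)) := by
    refine Finite.of_injective
      (fun (φ : R →ₐ[𝒪] DualNumber (ResidueField 𝒪)) (t : R ⧸ J) => φ (Quotient.out t)) ?_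
    intro φ ψ h
    apply AlgHom.ext
    intro y
    have h1 : ∀ χ : R →ₐ[𝒪] DualNumber (ResidueField 𝒪),
        χ y = χ (Quotient.out (Ideal.Quotient.mk J y)) := by
      intro χ
      rw [← sub_eq_zero, ← map_sub]
      apply le_ker_of_algHom χ
      rw [← hJ, ← Ideal.Quotient.eq, Ideal.Quotient.mk_out]
    rw [h1 φ, h1 ψ]
    exact congrFun h _
  -- the `k`-algebra structure on `T`
  let ψ : ResidueField 𝒪 →+* R ⧸ J :=
    Ideal.Quotient.lift (maximalIdeal 𝒪) (algebraMap 𝒪 (R ⧸ J)) (fun c hc => by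
      show Ideal.Quotient.mk J (algebraMap 𝒪 R c) = 0
      exact Ideal.Quotient.eq_zero_iff_mem.2 (Ideal.mem_sup_right (Ideal.mem_map_of_mem _ hc)))
  let _ : Algebra (ResidueField 𝒪) (R ⧸ J) := ψ.toAlgebra
  have : IsScalarTower 𝒪 (ResidueField 𝒪) (R ⧸ J) := IsScalarTower.of_algebraMap_eq (fun c => rfl)
  have hJm : J ≤ maximalIdeal R := by
    refine sup_le (Ideal.pow_le_self two_ne_zero) ?_
    rw [Ideal.map_le_iff_le_comap]
    intro c hc
    exact (mem_maximalIdeal _).2 fun hu =>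
      (mem_maximalIdeal c).1 hc (isUnit_of_map_unit (algebraMap 𝒪 R) c hu)
  have hJπ : ∀ a ∈ J, π.toRingHom a = 0 := fun a ha => (hπ a).2 (hJm ha)
  let πb : R ⧸ J →ₐ[ResidueField 𝒪] ResidueField 𝒪 :=
    { Ideal.Quotient.lift J π.toRingHom hJπ with
      commutes' := fun z => by
        obtain ⟨c, rfl⟩ := residue_surjective z
        exact π.commutes c }
  have hπb : ∀ y : R, πb (Ideal.Quotient.mk J y) = π y := fun y => rfl
  obtain ⟨d, b, hb0, hbspan, hbl⟩ := exists_basis_ker_augmentation (1 : R ⧸ J) πb.toLinearMap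
    (map_one πb)
  choose x hx using fun i => Ideal.Quotient.mk_surjective (b i)
  have hxm : ∀ i, x i ∈ maximalIdeal R := by
    intro i
    rw [← hπ, ← hπb, hx]
    exact hb0 i
  refine ⟨d, x, hxm, ?_, hfinHom, ?_⟩
  · intro y hy
    have h1 : Ideal.Quotient.mk J y ∈ Submodule.span (ResidueField 𝒪) (Set.range b) :=
      hbspan _ ((hπb y).trans ((hπ y).2 hy))
    obtain ⟨c, hc⟩ := (Submodule.mem_span_range_iff_exists_fun _).1 h1
    choose c' hc' using fun i => residue_surjective (c i)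
    have h2 : Ideal.Quotient.mk J (∑ i, algebraMap 𝒪 R (c' i) * x i) = Ideal.Quotient.mk J y := by
      rw [← hc, map_sum]
      refine Finset.sum_congr rfl fun i _ => ?_
      rw [map_mul, hx, ← hc' i, Algebra.smul_def]
      rfl
    have h3 : y - ∑ i, algebraMap 𝒪 R (c' i) * x i ∈ J := by
      rw [← Ideal.Quotient.eq, h2]
    have h4 : ∑ i, algebraMap 𝒪 R (c' i) * x i ∈ Ideal.span (Set.range x) :=
      Ideal.sum_mem _ fun i _ => Ideal.mul_mem_left _ _ (Ideal.subset_span ⟨i, rfl⟩)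
    have h5 := (Ideal.span (Set.range x) ⊔ J).add_mem (Ideal.mem_sup_left h4) (Ideal.mem_sup_right h3)
    rw [add_sub_cancel, hJ, ← sup_assoc] at h5
    exact h5
  · choose l hl1 hlb using hbl
    let l' : (Fin d → ResidueField 𝒪) → (R →ₗ[𝒪] ResidueField 𝒪) := fun a =>
      ((l a).restrictScalars 𝒪) ∘ₗ (Ideal.Quotient.mkₐ 𝒪 J).toLinearMap
    have hl' : ∀ a y, l' a y = l a (Ideal.Quotient.mk J y) := fun a y => rfl
    have h1 : ∀ a, l' a 1 = 0 := fun a => by rw [hl', map_one, hl1]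
    have h2 : ∀ a u u', π u = 0 → π u' = 0 → l' a (u * u') = 0 := by
      intro a u u' hu hu'
      have h3 : u * u' ∈ J := by
        apply Ideal.mem_sup_left
        rw [pow_two]
        exact Ideal.mul_mem_mul ((hπ u).1 hu) ((hπ u').1 hu')
      rw [hl', Ideal.Quotient.eq_zero_iff_mem.2 h3, map_zero]
    have hinj : Function.Injective (fun a : Fin d → ResidueField 𝒪 => dualHom π (l' a) (h1 a) (h2 a)) := by
      intro a a' haa
      funext i
      have h3 := congrArg (fun φ : R →ₐ[𝒪] DualNumber (ResidueField 𝒪) => (φ (x i)).snd) haa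
      simp only [snd_dualHom, hl', hx, hlb] at h3
      exact h3
    have h3 := Nat.card_le_card_of_injective _ hinj
    rwa [Nat.card_fun, Nat.card_eq_fintype_card (α := Fin d), Fintype.card_fin] at h3

end Fermat.Agent.S56
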