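import Fermat.Agent.S53.PowerSeries

/-!
# S56 / TD-ALG-B : generators of the cotangent space give a surjection from a power series ring

`m ≤ (x_1..x_r) + m² + m_𝒪 R` ⟹ `evalComplete m x : 𝒪[[X_1..X_r]] → R` is onto.
Nakayama gives `m = (x) + m_𝒪 R`; then `𝒪 → R/(x)` is onto (`𝒪` complete, `R/(x)` separated for the
`m_𝒪`-adic topology, onto modulo `m_𝒪`), and `𝒪[[X]] → R` is onto (`𝒪[[X]]` is `(X)`-adically complete,
`R` is `(x)`-adically separated, onto modulo `(X)`).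
-/

set_option autoImplicit false

open IsLocalRing

namespace Fermat.Agent.S56

variable {𝒪 : Type} [CommRing 𝒪] [IsDomain 𝒪] [IsDiscreteValuationRing 𝒪]
  [IsAdicComplete (maximalIdeal 𝒪) 𝒪] [Finite (ResidueField 𝒪)]
  (R : Type) [CommRing R] [IsLocalRing R] [IsNoetherianRing R]
  [IsAdicComplete (maximalIdeal R) R] [Algebra 𝒪 R] [IsLocalHom (algebraMap 𝒪 R)]

omit [IsDomain 𝒪] [IsDiscreteValuationRing 𝒪] [IsAdicComplete (maximalIdeal 𝒪) 𝒪]
  [Finite (ResidueField 𝒪)] [IsAdicComplete (maximalIdeal R) R] [IsLocalHom (algebraMap 𝒪 R)] in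
/-- Nakayama. -/
theorem maximalIdeal_le_of_gens [IsLocalRing 𝒪] {ι : Type*} (x : ι → R)
    (hgen : maximalIdeal R ≤ Ideal.span (Set.range x) ⊔ maximalIdeal R ^ 2 ⊔
        (maximalIdeal 𝒪).map (algebraMap 𝒪 R)) :
    maximalIdeal R ≤ Ideal.span (Set.range x) ⊔ (maximalIdeal 𝒪).map (algebraMap 𝒪 R) := by
  refine Submodule.le_of_le_smul_of_le_jacobson_bot (I := maximalIdeal R)
    (IsNoetherian.noetherian _) (maximalIdeal_le_jacobson _) (hgen.trans (le_of_eq ?_))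
  rw [smul_eq_mul, ← pow_two, sup_right_comm]

/-- [TD-ALG-B] -/
theorem exists_surjective_of_gens (hres : Function.Surjective (residue R ∘ algebraMap 𝒪 R))
    (r : ℕ) (x : Fin r → R) (hx : ∀ i, x i ∈ maximalIdeal R)
    (hgen : maximalIdeal R ≤ Ideal.span (Set.range x) ⊔ maximalIdeal R ^ 2 ⊔
        (maximalIdeal 𝒪).map (algebraMap 𝒪 R)) :
    ∃ γ : MvPowerSeries (Fin r) 𝒪 →ₐ[𝒪] R, Function.Surjective γ := by
  have hm := maximalIdeal_le_of_gens (𝒪 := 𝒪) R x hgen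
  set 𝔞 : Ideal R := Ideal.span (Set.range x) with h𝔞
  have h𝔞m : 𝔞 ≤ maximalIdeal R := by
    rw [h𝔞, Ideal.span_le]
    rintro _ ⟨i, rfl⟩
    exact hx i
  have h𝔞top : 𝔞 ≠ ⊤ := fun h => (maximalIdeal.isMaximal R).ne_top (top_le_iff.1 (h ▸ h𝔞m))
  -- step 1 : `𝒪 → R ⧸ 𝔞` is onto
  have hstep1 : Function.Surjective ((Ideal.Quotient.mk 𝔞).comp (algebraMap 𝒪 R)) := by
    have : Nontrivial (R ⧸ 𝔞) := Ideal.Quotient.nontrivial_iff.mpr h𝔞top
    have : IsLocalRing (R ⧸ 𝔞) :=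
      IsLocalRing.of_surjective' (Ideal.Quotient.mk 𝔞) Ideal.Quotient.mk_surjective
    have hne : (maximalIdeal 𝒪).map ((Ideal.Quotient.mk 𝔞).comp (algebraMap 𝒪 R)) ≠ ⊤ := by
      intro htop
      have h1 : (maximalIdeal 𝒪).map ((Ideal.Quotient.mk 𝔞).comp (algebraMap 𝒪 R)) ≤
          (maximalIdeal R).map (Ideal.Quotient.mk 𝔞) := by
        rw [← Ideal.map_map]
        refine Ideal.map_mono ?_
        rw [Ideal.map_le_iff_le_comap]
        intro c hc
        exact (mem_maximalIdeal _).2 fun hu =>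
          (mem_maximalIdeal c).1 hc (isUnit_of_map_unit (algebraMap 𝒪 R) c hu)
      rw [htop, top_le_iff] at h1
      have h2 : (1 : R ⧸ 𝔞) ∈ (maximalIdeal R).map (Ideal.Quotient.mk 𝔞) := h1 ▸ Submodule.mem_top
      obtain ⟨y, hy, hy1⟩ :=
        (Ideal.mem_map_iff_of_surjective _ Ideal.Quotient.mk_surjective).1 h2
      have h3 : y - 1 ∈ 𝔞 := by
        rw [← Ideal.Quotient.eq, hy1, map_one]
      have h4 : (1 : R) ∈ maximalIdeal R := by
        have := (maximalIdeal R).sub_mem hy (h𝔞m h3)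
        rwa [sub_sub_cancel] at this
      exact (maximalIdeal.isMaximal R).ne_top ((Ideal.eq_top_iff_one _).2 h4)
    have haus : IsHausdorff ((maximalIdeal 𝒪).map ((Ideal.Quotient.mk 𝔞).comp (algebraMap 𝒪 R)))
        (R ⧸ 𝔞) := IsHausdorff.of_isLocalRing _ _ hne
    refine surjective_of_mk_map_comp_surjective (I := maximalIdeal 𝒪) _ ?_
    intro y
    obtain ⟨y, rfl⟩ := Ideal.Quotient.mk_surjective y
    obtain ⟨y, rfl⟩ := Ideal.Quotient.mk_surjective y
    obtain ⟨c, hc⟩ := hres (residue R y)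
    refine ⟨c, ?_⟩
    have h1 : algebraMap 𝒪 R c - y ∈ maximalIdeal R := by
      rw [← residue_eq_zero_iff, map_sub, sub_eq_zero]
      exact hc
    obtain ⟨a, ha, b, hb, hab⟩ := Submodule.mem_sup.1 (hm h1)
    simp only [RingHom.comp_apply]
    rw [Ideal.Quotient.eq, ← map_sub, ← hab, map_add, Ideal.Quotient.eq_zero_iff_mem.2 ha, zero_add,
      ← Ideal.map_map]
    exact Ideal.mem_map_of_mem _ hb
  -- step 2
  refine ⟨S53.evalComplete (maximalIdeal R) x hx, ?_⟩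
  set γ : MvPowerSeries (Fin r) 𝒪 →ₐ[𝒪] R := S53.evalComplete (maximalIdeal R) x hx with hγ
  have hmap : (Ideal.span (Set.range MvPowerSeries.X) : Ideal (MvPowerSeries (Fin r) 𝒪)).map
      γ.toRingHom = 𝔞 := by
    rw [Ideal.map_span, h𝔞, ← Set.range_comp]
    congr 2
    funext i
    exact S53.evalComplete_X (maximalIdeal R) x hx i
  have haus : IsHausdorff ((Ideal.span (Set.range MvPowerSeries.X) :
      Ideal (MvPowerSeries (Fin r) 𝒪)).map γ.toRingHom) R := by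
    rw [hmap]
    exact IsHausdorff.of_isLocalRing _ _ h𝔞top
  refine surjective_of_mk_map_comp_surjective
    (I := (Ideal.span (Set.range MvPowerSeries.X) : Ideal (MvPowerSeries (Fin r) 𝒪)))
    γ.toRingHom ?_
  rw [hmap]
  intro y
  obtain ⟨c, hc⟩ := hstep1 y
  refine ⟨algebraMap 𝒪 _ c, ?_⟩
  rw [← hc]
  simp only [RingHom.comp_apply]
  congr 1
  exact γ.commutes c

end Fermat.Agent.S56
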