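import Fermat.Agent.S56.TD.Dual
import Fermat.Agent.S53.PowerSeries
import Fermat.Agent.S56.TD.AlgA
import Fermat.Agent.S56.TD.AlgB

/-!
# S56 / TD-ALG : few maps to `k[ε]`  ⟹  few generators.   (commutative algebra only: Mathlib + S53/PowerSeries `evalComplete`)

`R` complete noetherian local `𝒪`-algebra with residue field `k`; `J := m_R² + m_𝒪 R`; `t^* := m_R / J` (a finite dimensional `k`-vector space, `d := dim`).

[TD-ALG-A]  `𝒪`-algebra maps `R → k[ε]` ↔ `Hom_k(t^*, k)`:  `φ ↦ snd ∘ φ|_m`.  Only needed: the set is finite and has `≥ #k^d` elements, for `x₁..x_d ∈ m` lifting a basis of `t^*`.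
 Construction of `φ_a` (`a ∈ k^d`): every `y ∈ R` is `algebraMap c + ∑ algebraMap c_i * x_i + j`, `j ∈ J`, with `c̄, c̄_i` unique; `φ_a y = (c̄, ∑ c̄_i a_i)`.
 (Cleaner: `R/J` is a `k`-algebra `= k ⊕ t^*` with `t^*² = 0`; or `Derivation 𝒪 R k`.)   Finiteness: `φ` is determined by `snd ∘ φ` on `x_1..x_d`.
[TD-ALG-B]  `m ≤ (x_1..x_d) + m² + m_𝒪 R`, `d ≤ r` ⟹ `γ := evalComplete m (x extended by 0) : 𝒪[[X_1..X_r]] → R` is onto.
 Proof: Nakayama: `m = (x_i) + m_𝒪 R = γ(n) R`, `n = (ϖ, X_i)`; `R = γ(𝒪) + m`; successive approximation: `y = γ(f_0) + ∑_j γ(g_j) y_j` (`g_j ∈ {ϖ, X_i}`), iterate;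
 the series converges coefficientwise/`n`-adically in `𝒪[[X]]` (`𝒪` complete), `γ(n^N) ⊆ m^N`, `R` separated.

The two leaves are proved in `TD/AlgA.lean` (`exists_gens_card_le`) and `TD/AlgB.lean`
(`exists_surjective_of_gens`).
-/

set_option autoImplicit false

open IsLocalRing

namespace Fermat.Agent.S56

variable {𝒪 : Type} [CommRing 𝒪] [IsDomain 𝒪] [IsDiscreteValuationRing 𝒪]
  [IsAdicComplete (maximalIdeal 𝒪) 𝒪] [Finite (ResidueField 𝒪)]
  (R : Type) [CommRing R] [IsLocalRing R] [IsNoetherianRing R]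
  [IsAdicComplete (maximalIdeal R) R] [Algebra 𝒪 R] [IsLocalHom (algebraMap 𝒪 R)]

/-- **[TD-ALG]** -/
theorem exists_surjective_of_card_le (hres : Function.Surjective (residue R ∘ algebraMap 𝒪 R))
    (r : ℕ) (hcard : Nat.card (R →ₐ[𝒪] DualNumber (ResidueField 𝒪)) ≤
      Nat.card (ResidueField 𝒪) ^ r) :
    ∃ γ : MvPowerSeries (Fin r) 𝒪 →ₐ[𝒪] R, Function.Surjective γ := by
  obtain ⟨d, x, hx, hgen, -, hle⟩ := exists_gens_card_le (𝒪 := 𝒪) R hres
  have h1 : 1 < Nat.card (ResidueField 𝒪) := Finite.one_lt_card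
  have hdr : d ≤ r := (Nat.pow_le_pow_iff_right h1).1 (hle.trans hcard)
  refine exists_surjective_of_gens R hres r
    (fun i => if h : (i : ℕ) < d then x ⟨i, h⟩ else 0) (fun i => ?_) (hgen.trans ?_)
  · split_ifs
    · exact hx _
    · exact zero_mem _
  · refine sup_le_sup_right (sup_le_sup_right (Ideal.span_mono ?_) _) _
    rintro _ ⟨i, rfl⟩
    exact ⟨⟨i, i.2.trans_le hdr⟩, by simp⟩

end Fermat.Agent.S56
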