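import Mathlib
import Fermat.Prelude.Def_GaloisRep_Flat

/-!
# S56 / TD-BC-FLAT : flatness is stable under surjective base change and under equivalence

`transport`: the Hopf algebra datum of `IsFlatAt` only depends on the additive group
`V / I V` with its Galois action.
-/

set_option autoImplicit false
set_option linter.style.haveILetI false
set_option linter.unusedSectionVars false

open IsLocalRing TensorProduct

namespace Fermat.Agent.S56.BCFlat

/-- membership in `I M` in coordinates -/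
theorem mem_smul_top_iff_repr {R M ι : Type*} [CommRing R] [AddCommGroup M] [Module R M]
    [Fintype ι] (b : Module.Basis ι R M) (I : Ideal R) (x : M) :
    x ∈ I • (⊤ : Submodule R M) ↔ ∀ i, b.repr x i ∈ I := by
  constructor
  · intro hx i
    refine Submodule.smul_induction_on (p := fun x => b.repr x i ∈ I) hx ?_ ?_
    · intro r hr m _
      rw [map_smul, Finsupp.smul_apply, smul_eq_mul]
      exact I.mul_mem_right _ hr
    · intro x y hx hy
      rw [map_add, Finsupp.add_apply]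
      exact I.add_mem hx hy
  · intro h
    rw [← b.sum_repr x]
    exact Submodule.sum_mem _ fun i _ => Submodule.smul_mem_smul (h i) Submodule.mem_top

variable {A B : Type} [CommRing A] [IsLocalRing A] [CommRing B] [IsLocalRing B]

/-- the datum of `IsFlatAt` at one level -/
def LevelFlat (p : ℕ) (ρ : GaloisRepAdic A) (I : Ideal A) : Prop :=
  ∃ (H : Type) (_ : CommRing H) (_ : HopfAlgebra (GaloisRep.ratLocalizedAt p) H),
      Module.Finite (GaloisRep.ratLocalizedAt p) H ∧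
      Module.Flat (GaloisRep.ratLocalizedAt p) H ∧
      Coalgebra.IsCocomm (GaloisRep.ratLocalizedAt p) H ∧
      ∃ e : WithConv (H →ₐ[GaloisRep.ratLocalizedAt p] AlgebraicClosure ℚ) ≃
          (ρ.V ⧸ (I • (⊤ : Submodule A ρ.V))),
        (∀ f g : WithConv (H →ₐ[GaloisRep.ratLocalizedAt p] AlgebraicClosure ℚ),
          e (f * g) = e f + e g) ∧
        ∀ (σ : AlgebraicClosure ℚ ≃ₐ[ℚ] AlgebraicClosure ℚ)
          (f g : WithConv (H →ₐ[GaloisRep.ratLocalizedAt p] AlgebraicClosure ℚ)),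
          (∀ h : H, g h = σ (f h)) → e g = ρ.levelAction I σ (e f)

theorem isFlatAt_iff (p : ℕ) (ρ : GaloisRepAdic A) :
    ρ.IsFlatAt p ↔ Finite (ResidueField A) ∧ ∀ I : Ideal A, Finite (A ⧸ I) → LevelFlat p ρ I :=
  Iff.rfl

/-- transport of the datum along an equivariant additive bijection -/
theorem LevelFlat.transport {p : ℕ} {ρ : GaloisRepAdic A} {I : Ideal A} {ρ' : GaloisRepAdic B}
    {I' : Ideal B} (h : LevelFlat p ρ I)
    (θ : (ρ.V ⧸ (I • (⊤ : Submodule A ρ.V))) ≃+ (ρ'.V ⧸ (I' • (⊤ : Submodule B ρ'.V))))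
    (hθ : ∀ σ x, θ (ρ.levelAction I σ x) = ρ'.levelAction I' σ (θ x)) : LevelFlat p ρ' I' := by
  obtain ⟨H, i1, i2, h1, h2, h3, e, he, hσ⟩ := h
  refine ⟨H, i1, i2, h1, h2, h3, e.trans θ.toEquiv, fun f g => ?_, fun σ f g hfg => ?_⟩
  · show θ (e (f * g)) = θ (e f) + θ (e g)
    rw [he, map_add]
  · show θ (e g) = ρ'.levelAction I' σ (θ (e f))
    rw [hσ σ f g hfg, hθ]

theorem isFlatAt_of_isEquiv {p : ℕ} {ρ ρ' : GaloisRepAdic A} (he : ρ.IsEquiv ρ')
    (h : ρ.IsFlatAt p) : ρ'.IsFlatAt p := by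
  obtain ⟨e⟩ := he
  rw [isFlatAt_iff] at h ⊢
  refine ⟨h.1, fun I hI => ?_⟩
  have hmap : (I • (⊤ : Submodule A ρ.V)).map (e.toLinearEquiv : ρ.V →ₗ[A] ρ'.V) =
      I • (⊤ : Submodule A ρ'.V) := by
    rw [Submodule.map_smul'', Submodule.map_top, LinearEquiv.range]
  let θ := Submodule.Quotient.equiv _ _ e.toLinearEquiv hmap
  refine (h.2 I hI).transport θ.toAddEquiv fun σ x => ?_
  obtain ⟨v, rfl⟩ := Submodule.Quotient.mk_surjective _ x
  show θ (Submodule.Quotient.mk (ρ.ρ σ v)) =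
    ρ'.levelAction I σ (Submodule.Quotient.mk (e.toLinearEquiv v))
  show Submodule.Quotient.mk (e.toLinearEquiv (ρ.ρ σ v)) =
    Submodule.Quotient.mk (ρ'.ρ σ (e.toLinearEquiv v))
  rw [e.map_apply]

section BaseChange

section Alg

variable [Algebra A B] (ρ : GaloisRepAdic A)

/-- `v ↦ 1 ⊗ v mod I`. -/
noncomputable def toLevel (I : Ideal B) :
    ρ.V →ₗ[A] ((B ⊗[A] ρ.V) ⧸ (I • (⊤ : Submodule B (B ⊗[A] ρ.V)))) :=
  ((I • (⊤ : Submodule B (B ⊗[A] ρ.V))).mkQ.restrictScalars A).comp (TensorProduct.mk A B ρ.V 1)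

theorem toLevel_apply (I : Ideal B) (v : ρ.V) :
    toLevel ρ I v = Submodule.Quotient.mk ((1 : B) ⊗ₜ[A] v) := rfl

theorem toLevel_surjective (hsurj : Function.Surjective (algebraMap A B)) (I : Ideal B) :
    Function.Surjective (toLevel ρ I) := by
  intro x
  obtain ⟨x, rfl⟩ := Submodule.Quotient.mk_surjective _ x
  suffices h : ∃ v : ρ.V, (1 : B) ⊗ₜ[A] v = x by
    obtain ⟨v, rfl⟩ := h
    exact ⟨v, rfl⟩
  induction x using TensorProduct.induction_on with
  | zero => exact ⟨0, by simp⟩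
  | tmul b v =>
    obtain ⟨a, rfl⟩ := hsurj b
    refine ⟨a • v, ?_⟩
    rw [TensorProduct.tmul_smul, TensorProduct.smul_tmul', Algebra.smul_def, mul_one]
  | add x y hx hy =>
    obtain ⟨v, rfl⟩ := hx
    obtain ⟨w, rfl⟩ := hy
    exact ⟨v + w, TensorProduct.tmul_add _ _ _⟩

theorem ker_toLevel (I : Ideal B) :
    LinearMap.ker (toLevel ρ I) = (I.comap (algebraMap A B)) • (⊤ : Submodule A ρ.V) := by
  let b := Module.Free.chooseBasis A ρ.V
  ext v
  rw [LinearMap.mem_ker, toLevel_apply, Submodule.Quotient.mk_eq_zero,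
    mem_smul_top_iff_repr (Algebra.TensorProduct.basis B b), mem_smul_top_iff_repr b]
  refine forall_congr' fun i => ?_
  rw [Algebra.TensorProduct.basis_repr_tmul, one_smul, Finsupp.mapRange_apply]
  rfl

/-- `V / (φ⁻¹ I) V ≃ V_B / I V_B`. -/
noncomputable def levelEquiv (hsurj : Function.Surjective (algebraMap A B)) (I : Ideal B) :
    (ρ.V ⧸ ((I.comap (algebraMap A B)) • (⊤ : Submodule A ρ.V))) ≃+
      ((B ⊗[A] ρ.V) ⧸ (I • (⊤ : Submodule B (B ⊗[A] ρ.V)))) :=
  ((Submodule.quotEquivOfEq _ _ (ker_toLevel ρ I).symm).trans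
    ((toLevel ρ I).quotKerEquivOfSurjective (toLevel_surjective ρ hsurj I))).toAddEquiv

theorem levelEquiv_mk (hsurj : Function.Surjective (algebraMap A B)) (I : Ideal B) (v : ρ.V) :
    levelEquiv ρ hsurj I (Submodule.Quotient.mk v) = Submodule.Quotient.mk ((1 : B) ⊗ₜ[A] v) :=
  rfl

end Alg

variable (φ : A →+* B) (hφ : IsLocalHom φ) {ρ : GaloisRepAdic A}

theorem isFlatAt_baseChange_of_surjective {p : ℕ} (hsurj : Function.Surjective φ)
    (h : ρ.IsFlatAt p) : (ρ.baseChangeAlong φ hφ).IsFlatAt p := by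
  letI : Algebra A B := φ.toAlgebra
  rw [isFlatAt_iff] at h ⊢
  constructor
  · haveI := h.1
    haveI := hφ
    refine Finite.of_surjective (ResidueField.map φ) fun y => ?_
    obtain ⟨b, rfl⟩ := IsLocalRing.residue_surjective y
    obtain ⟨a, rfl⟩ := hsurj b
    exact ⟨IsLocalRing.residue A a, rfl⟩
  · intro I hI
    have hI' : Finite (A ⧸ I.comap φ) :=
      Finite.of_injective (Ideal.quotientMap I φ le_rfl) (Ideal.quotientMap_injective)
    refine (h.2 _ hI').transport (ρ' := ρ.baseChangeAlong φ hφ) (I' := I)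
      (levelEquiv ρ hsurj I) fun σ x => ?_
    obtain ⟨v, rfl⟩ := Submodule.Quotient.mk_surjective _ x
    show levelEquiv ρ hsurj I (Submodule.Quotient.mk (ρ.ρ σ v)) =
      (ρ.baseChangeAlong φ hφ).levelAction I σ (levelEquiv ρ hsurj I (Submodule.Quotient.mk v))
    rw [levelEquiv_mk, levelEquiv_mk]
    show _ = Submodule.Quotient.mk ((ρ.ρ σ).baseChange B ((1 : B) ⊗ₜ[A] v))
    rw [LinearMap.baseChange_tmul]

end BaseChange

end Fermat.Agent.S56.BCFlat
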