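import Fermat.Agent.S56.Defs
import Fermat.Agent.S56.TD.BCFlat

/-!
# S56 / TD-BC : the deformation conditions are stable under base change  (Prelude definitions + Mathlib; no arithmetic).

`φ : A → B` a local homomorphism of local rings, `ρ_B = ρ.baseChangeAlong φ hφ` (`V_B = B ⊗[A] V`, `ρ_B σ = (ρ σ).baseChange B`).
* det / charpoly commute with base change (`LinearMap.det_baseChange`, `LinearMap.charpoly_baseChange`);
* strict ordinary: `L_B := B ∙ (1 ⊗ b 0)`, basis `Algebra.TensorProduct.basis B b`; `x, z ↦ φ x, φ z`;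
* flat, `φ` SURJECTIVE: for `I ≤ B` with `B/I` finite put `I' := I.comap φ`: `A/I' ≃ B/I` is finite and
  `V/I'V → V_B/I V_B`, `v ↦ 1 ⊗ v` is an additive bijection commuting with `levelAction`; take the `H` of `I'` and compose `e` with it.
  (`Finite (ResidueField B)`: `ResidueField A → ResidueField B` is onto.)
-/

set_option autoImplicit false

open IsLocalRing
open scoped TensorProduct

namespace Fermat.Agent.S56

variable {A B : Type} [CommRing A] [IsLocalRing A] [CommRing B] [IsLocalRing B]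
  (φ : A →+* B) (hφ : IsLocalHom φ) {ρ : GaloisRepAdic A}

theorem detIsCyclotomic_baseChange {p : ℕ} (h : ρ.DetIsCyclotomic p) :
    (ρ.baseChangeAlong φ hφ).DetIsCyclotomic p := by
  let _ : Algebra A B := φ.toAlgebra
  refine ⟨?_, fun n σ a ha => ?_⟩
  · rw [← map_natCast φ]
    exact (haveI := hφ; map_nonunit φ _ h.1)
  · have h1 := h.2 n σ a ha
    have h2 : LinearMap.det ((ρ.baseChangeAlong φ hφ).ρ σ) = φ (LinearMap.det (ρ.ρ σ)) := by
      show LinearMap.det ((ρ.ρ σ).baseChange B) = _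
      rw [LinearMap.det_baseChange]; rfl
    rw [h2, ← map_natCast φ a, ← map_sub]
    obtain ⟨c, hc⟩ := Ideal.mem_span_singleton'.1 h1
    rw [← hc, map_mul, map_natCast]
    exact Ideal.mul_mem_left _ _ (Ideal.mem_span_singleton_self _)

theorem isUnramifiedAt_baseChange {q : ℕ} (h : ρ.IsUnramifiedAt q) :
    (ρ.baseChangeAlong φ hφ).IsUnramifiedAt q := by
  let _ : Algebra A B := φ.toAlgebra
  intro P hP σ hσ
  show (ρ.ρ σ).baseChange B = 1
  rw [h P hP σ hσ, LinearMap.baseChange_one]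

theorem isUnipotentOnInertiaAt_baseChange {q : ℕ} (h : ρ.IsUnipotentOnInertiaAt q) :
    (ρ.baseChangeAlong φ hφ).IsUnipotentOnInertiaAt q := by
  let _ : Algebra A B := φ.toAlgebra
  intro P hP σ hσ
  show LinearMap.charpoly ((ρ.ρ σ).baseChange B) = _
  rw [LinearMap.charpoly_baseChange, h P hP σ hσ]
  simp

theorem isStrictOrdinaryAt_baseChange {p : ℕ} (h : ρ.IsStrictOrdinaryAt p) :
    (ρ.baseChangeAlong φ hφ).IsStrictOrdinaryAt p := by
  let _ : Algebra A B := φ.toAlgebra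
  refine ⟨?_, fun P hP => ?_⟩
  · rw [← map_natCast φ]
    exact (haveI := hφ; map_nonunit φ _ h.1)
  obtain ⟨L, ⟨b, rfl⟩, hD, hI, hx⟩ := h.2 P hP
  -- the line
  have key : ∀ v ∈ (A ∙ b 0), ∀ c : B, (c ⊗ₜ[A] v : B ⊗[A] ρ.V) ∈
      (B ∙ ((1 : B) ⊗ₜ[A] b 0 : B ⊗[A] ρ.V)) := by
    intro v hv c
    obtain ⟨a, rfl⟩ := Submodule.mem_span_singleton.1 hv
    rw [TensorProduct.tmul_smul, TensorProduct.smul_tmul', Submodule.mem_span_singleton]
    refine ⟨a • c, ?_⟩
    rw [TensorProduct.smul_tmul', smul_eq_mul, mul_one]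
  change ∃ L : Submodule B (B ⊗[A] ρ.V),
      (∃ b' : Module.Basis (Fin 2) B (B ⊗[A] ρ.V), L = B ∙ b' 0) ∧
      (∀ σ ∈ P.decompositionSubgroup ℚ, ∀ v ∈ L, (ρ.ρ σ).baseChange B v ∈ L) ∧
      (∀ σ ∈ P.inertiaSubgroupIn ℚ, ∀ v : B ⊗[A] ρ.V, (ρ.ρ σ).baseChange B v - v ∈ L) ∧
      (∀ σ ∈ P.decompositionSubgroup ℚ, ∃ x z : B,
        (∀ w ∈ L, (ρ.ρ σ).baseChange B w = x • w) ∧
        (∀ v : B ⊗[A] ρ.V, (ρ.ρ σ).baseChange B v - z • v ∈ L) ∧
        ∀ (n a : ℕ), (∀ μ : AlgebraicClosure ℚ, μ ^ p ^ n = 1 → σ μ = μ ^ a) →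
          x - (a : B) * z ∈ Ideal.span {((p ^ n : ℕ) : B)})
  refine ⟨(B ∙ ((1 : B) ⊗ₜ[A] b 0 : B ⊗[A] ρ.V)), ⟨Algebra.TensorProduct.basis B b, ?_⟩,
    ?_, ?_, ?_⟩
  · rw [Algebra.TensorProduct.basis_apply]
  · intro σ hσ v hv
    obtain ⟨c, rfl⟩ := Submodule.mem_span_singleton.1 hv
    rw [map_smul, LinearMap.baseChange_tmul]
    exact Submodule.smul_mem _ _ (key _ (hD σ hσ _ (Submodule.mem_span_singleton_self _)) 1)
  · intro σ hσ v
    induction v using TensorProduct.induction_on with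
    | zero => simp
    | tmul c v =>
      rw [LinearMap.baseChange_tmul, ← TensorProduct.tmul_sub]
      exact key _ (hI σ hσ v) c
    | add x y hx hy =>
      rw [map_add, add_sub_add_comm]
      exact Submodule.add_mem _ hx hy
  · intro σ hσ
    obtain ⟨x, z, h1, h2, h3⟩ := hx σ hσ
    refine ⟨φ x, φ z, ?_, ?_, ?_⟩
    · intro w hw
      obtain ⟨c, rfl⟩ := Submodule.mem_span_singleton.1 hw
      rw [map_smul, LinearMap.baseChange_tmul, h1 _ (Submodule.mem_span_singleton_self _),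
        TensorProduct.tmul_smul, smul_comm c]
      congr 1
    · intro v
      induction v using TensorProduct.induction_on with
      | zero => simp
      | tmul c v =>
        have : φ z • (c ⊗ₜ[A] v : B ⊗[A] ρ.V) = c ⊗ₜ[A] (z • v) := by
          rw [TensorProduct.tmul_smul, TensorProduct.smul_tmul', TensorProduct.smul_tmul',
            Algebra.smul_def]
          rfl
        rw [LinearMap.baseChange_tmul, this, ← TensorProduct.tmul_sub]
        exact key _ (h2 v) c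
      | add x y hx hy =>
        rw [map_add, smul_add, add_sub_add_comm]
        exact Submodule.add_mem _ hx hy
    · intro n a ha
      obtain ⟨c, hc⟩ := Ideal.mem_span_singleton'.1 (h3 n a ha)
      rw [← map_natCast φ a, ← map_mul, ← map_sub, ← hc, map_mul, map_natCast]
      exact Ideal.mul_mem_left _ _ (Ideal.mem_span_singleton_self _)

theorem isFlatAt_baseChange_of_surjective {p : ℕ} (hsurj : Function.Surjective φ)
    (h : ρ.IsFlatAt p) : (ρ.baseChangeAlong φ hφ).IsFlatAt p :=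
  BCFlat.isFlatAt_baseChange_of_surjective φ hφ hsurj h

/-! the same conditions are invariant under equivalence (needed to pass to `S53.ofMat`) -/

theorem isFlatAt_of_isEquiv {p : ℕ} {ρ' : GaloisRepAdic A} (he : ρ.IsEquiv ρ') (h : ρ.IsFlatAt p) :
    ρ'.IsFlatAt p :=
  BCFlat.isFlatAt_of_isEquiv he h

theorem isStrictOrdinaryAt_of_isEquiv {p : ℕ} {ρ' : GaloisRepAdic A} (he : ρ.IsEquiv ρ')
    (h : ρ.IsStrictOrdinaryAt p) : ρ'.IsStrictOrdinaryAt p := by
  obtain ⟨e⟩ := he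
  refine ⟨h.1, fun P hP => ?_⟩
  obtain ⟨L, ⟨b, rfl⟩, hD, hI, hx⟩ := h.2 P hP
  have hmem : ∀ w : ρ'.V, w ∈ (A ∙ e.toLinearEquiv (b 0)) ↔
      e.toLinearEquiv.symm w ∈ (A ∙ b 0) := by
    intro w
    rw [Submodule.mem_span_singleton, Submodule.mem_span_singleton]
    constructor
    · rintro ⟨a, rfl⟩
      exact ⟨a, by simp⟩
    · rintro ⟨a, ha⟩
      exact ⟨a, by rw [← map_smul, ha]; simp⟩
  have hs : ∀ σ (w : ρ'.V), e.toLinearEquiv.symm (ρ'.ρ σ w) = ρ.ρ σ (e.toLinearEquiv.symm w) :=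
    fun σ w => e.symm.map_apply σ w
  refine ⟨A ∙ e.toLinearEquiv (b 0), ⟨b.map e.toLinearEquiv, by simp⟩, ?_, ?_, ?_⟩
  · intro σ hσ v hv
    rw [hmem, hs]
    exact hD σ hσ _ ((hmem v).1 hv)
  · intro σ hσ v
    rw [hmem, map_sub, hs]
    exact hI σ hσ _
  · intro σ hσ
    obtain ⟨x, z, h1, h2, h3⟩ := hx σ hσ
    refine ⟨x, z, ?_, ?_, h3⟩
    · intro w hw
      apply e.toLinearEquiv.symm.injective
      rw [hs, map_smul]
      exact h1 _ ((hmem w).1 hw)
    · intro v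
      rw [hmem, map_sub, hs, map_smul]
      exact h2 _

end Fermat.Agent.S56
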