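import Fermat.Agent.S56.TD.Coc
import Fermat.Agent.S53.RepN

/-!
# S56 / TD-UNIV : `Hom_𝒪(R^univ, k[ε]) × W ↪ S̃el`   (uses only the UNIQUENESS half of `DeformationRingData.universal`).

`R = DQ.R`, `r : GQ →* M2 R` with `S53.HasMatrix DQ.ρ r`, `S53.Lifts rbar r` (`S53.exists_lifts_of_residual_isEquiv`).
For `φ : R →ₐ[𝒪] k[ε]` put `r_φ := S53.mapRep φ r` (`IsLift rbar r_φ`, `S53.HasMatrix (DQ.ρ.baseChangeAlong φ _) r_φ`), `c_φ := coc r_φ`.
(0) every `φ` is local (`S53.isLocalHom_of_residue_surjective'`); `fst ∘ φ` does not depend on `φ` (`R = 𝒪 + m`).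
(1) `φ` is onto or `snd ∘ φ = 0` [if `snd (φ y) = s ≠ 0` then `ε s = φ (y - algebraMap c)` is in the image, and the image contains `inl k`].  So there is exactly one non-surjective `φ₀`, and `c_{φ₀} = 0`.
(2) `φ` onto: `𝒟 (ρ_φ)` by `hbc`, so `c_φ ∈ X` and `det r_φ` is constant by `hX`.
(3) `φ, φ'` onto, `c_φ - c_φ' ∈ B¹`: `exists_conj_of_sub_mem_B1` ⟹ `ρ_φ ≃ ρ_φ'` ⟹ `φ = φ'` (both satisfy the property characterising the unique map attached to `ρ_φ'` by `DQ.universal`;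
  its hypotheses: `𝒟 ρ_φ'` by (2), residual equivalence by `S53.HasMatrix.residual_isEquiv`).
(4) `φ` onto and `c_φ ∈ B¹`: `φ₂ := scaleHom 2 ∘ φ` is onto, `c_{φ₂} = 2 c_φ`, `c_{φ₂} - c_φ ∈ B¹`, so `φ₂ = φ` by (3), `snd ∘ φ = 2 snd ∘ φ`, `snd ∘ φ = 0`: contradiction.
(5) so `(φ, w) ↦ c_φ + ∂ w` is an injection `Hom × W → X` (`∂` is injective by `h0`).
-/

set_option autoImplicit false

open IsLocalRing

namespace Fermat.Agent.S56

open CFT (levS levAll decomp Z1 B1 d12 d01)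

section Aux

variable {k : Type} [Field k]

/-- a representation with values in `k ⊆ k[ε]` has zero cochain -/
lemma coc_eq_zero_of_snd (h2 : (2 : k) ≠ 0) (r₁ : GQ →* M2 (DualNumber k))
    (h : ∀ σ i j, (r₁ σ i j).snd = 0) : coc h2 r₁ = 0 := by
  funext σ
  have h1 : (r₁ σ).map TrivSqZeroExt.snd = 0 := by
    ext i j
    exact h σ i j
  rw [coc, cocM, h1, zero_mul, map_zero, Pi.zero_apply]

end Aux

variable {𝒪 : Type} [CommRing 𝒪] [IsDomain 𝒪] [IsDiscreteValuationRing 𝒪]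
  [IsAdicComplete (maximalIdeal 𝒪) 𝒪] [Finite (ResidueField 𝒪)]

section Hom

variable {R : Type} [CommRing R] [IsLocalRing R] [Algebra 𝒪 R]

omit [IsDomain 𝒪] [IsDiscreteValuationRing 𝒪] [IsAdicComplete (maximalIdeal 𝒪) 𝒪]
  [Finite (ResidueField 𝒪)] in
/-- (0) `fst ∘ φ` does not depend on `φ` -/
lemma fst_algHom_eq [IsLocalRing 𝒪]
    (φ : R →ₐ[𝒪] DualNumber (ResidueField 𝒪)) (y : R) (c : 𝒪)
    (hc : residue R (algebraMap 𝒪 R c) = residue R y) : (φ y).fst = residue 𝒪 c := by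
  have hφ : IsLocalHom (φ : R →+* DualNumber (ResidueField 𝒪)) :=
    S53.isLocalHom_of_residue_surjective' residue_surjective_dualNumber φ
  have h1 : y - algebraMap 𝒪 R c ∈ maximalIdeal R := by
    rw [← residue_eq_zero_iff, map_sub, hc, sub_self]
  have h2 : (φ : R →+* DualNumber (ResidueField 𝒪)) (y - algebraMap 𝒪 R c) ∈
      maximalIdeal (DualNumber (ResidueField 𝒪)) := map_nonunit _ _ h1
  rw [mem_maximalIdeal_dualNumber] at h2
  have h3 : (φ : R →+* DualNumber (ResidueField 𝒪)) (y - algebraMap 𝒪 R c) =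
      φ y - algebraMap 𝒪 (DualNumber (ResidueField 𝒪)) c := by
    rw [map_sub]; simp
  rw [h3, algebraMap_dualNumber, TrivSqZeroExt.fst_sub, TrivSqZeroExt.fst_inl, sub_eq_zero] at h2
  exact h2

end Hom

/-- **[TD-UNIV]** -/
theorem card_algHom_mul_le (h2 : (2 : ResidueField 𝒪) ≠ 0)
    (ρbar : ResidualGaloisRep (ResidueField 𝒪))
    (b : Module.Basis (Fin 2) (ResidueField 𝒪) ρbar.V) (rbar : GQ →* M2 (ResidueField 𝒪))
    (hrbar : ∀ σ, LinearMap.toMatrix b b (ρbar.ρ σ) = rbar σ)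
    (𝒟 : ∀ ⦃A : Type⦄ [CommRing A] [IsLocalRing A] [Algebra 𝒪 A], GaloisRepAdic A → Prop)
    (DQ : GaloisRep.DeformationRingData 𝒪 ρbar 𝒟)
    (hbc : ∀ (φ : DQ.R →ₐ[𝒪] DualNumber (ResidueField 𝒪))
      (hφ : IsLocalHom (φ : DQ.R →+* DualNumber (ResidueField 𝒪))), Function.Surjective φ →
      𝒟 (DQ.ρ.baseChangeAlong (φ : DQ.R →+* DualNumber (ResidueField 𝒪)) hφ))
    (X : Submodule (ResidueField 𝒪) (GQ → sl2 (ResidueField 𝒪))) (hfin : Finite ↥X)
    (hB : B1 (adRep rbar) ≤ X)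
    (h0 : ∀ w, (∀ g, adRep rbar g w = w) → w = 0)
    (hX : ∀ (ρ₁ : GaloisRepAdic (DualNumber (ResidueField 𝒪)))
      (r₁ : GQ →* M2 (DualNumber (ResidueField 𝒪))), 𝒟 ρ₁ → S53.HasMatrix ρ₁ r₁ → IsLift rbar r₁ →
        coc h2 r₁ ∈ X ∧ ∀ σ, (r₁ σ).det = TrivSqZeroExt.inl (rbar σ).det) :
    Nat.card (DQ.R →ₐ[𝒪] DualNumber (ResidueField 𝒪)) * Nat.card ↥(sl2 (ResidueField 𝒪)) ≤
      Nat.card ↥X := by
  classical
  obtain ⟨r, hr, hl⟩ := S53.exists_lifts_of_residual_isEquiv (rbar := rbar) b hrbar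
    (ResidueField.map (algebraMap 𝒪 DQ.R)) (fun c => rfl) DQ.residual_isEquiv
  -- notation
  have hloc : ∀ φ : DQ.R →ₐ[𝒪] DualNumber (ResidueField 𝒪),
      IsLocalHom (φ : DQ.R →+* DualNumber (ResidueField 𝒪)) := fun φ =>
    S53.isLocalHom_of_residue_surjective' residue_surjective_dualNumber φ
  let rr : (DQ.R →ₐ[𝒪] DualNumber (ResidueField 𝒪)) → (GQ →* M2 (DualNumber (ResidueField 𝒪))) :=
    fun φ => S53.mapRep (φ : DQ.R →+* DualNumber (ResidueField 𝒪)) r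
  have hmat : ∀ φ : DQ.R →ₐ[𝒪] DualNumber (ResidueField 𝒪), S53.HasMatrix (DQ.ρ.baseChangeAlong
      (φ : DQ.R →+* DualNumber (ResidueField 𝒪)) (hloc φ)) (rr φ) := fun φ =>
    hr.baseChangeAlong _ (hloc φ)
  have hlifts : ∀ φ, S53.Lifts rbar (rr φ) := fun φ => hl.mapRep φ (hloc φ)
  have hlift : ∀ φ, IsLift rbar (rr φ) := fun φ => (lifts_iff_isLift rbar (rr φ)).mp (hlifts φ)
  -- (1)
  have h1 : ∀ φ : DQ.R →ₐ[𝒪] DualNumber (ResidueField 𝒪), ¬ Function.Surjective φ →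
      ∀ y, (φ y).snd = 0 := by
    intro φ hφ y
    by_contra hs
    apply hφ
    intro z
    obtain ⟨c, hc⟩ := residue_surjective (R := 𝒪) (φ y).fst
    obtain ⟨c1, hc1⟩ := residue_surjective (R := 𝒪) z.fst
    obtain ⟨c2, hc2⟩ := residue_surjective (R := 𝒪) (z.snd / (φ y).snd)
    refine ⟨algebraMap 𝒪 DQ.R c1 + algebraMap 𝒪 DQ.R c2 * (y - algebraMap 𝒪 DQ.R c), ?_⟩
    rw [map_add, map_mul, map_sub, AlgHom.commutes, AlgHom.commutes, AlgHom.commutes,
      algebraMap_dualNumber, algebraMap_dualNumber, algebraMap_dualNumber, hc, hc1, hc2]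
    apply TrivSqZeroExt.ext
    · simp
    · simp [div_mul_cancel₀ _ hs]
  -- (2)
  have h2' : ∀ φ : DQ.R →ₐ[𝒪] DualNumber (ResidueField 𝒪), Function.Surjective φ →
      𝒟 (DQ.ρ.baseChangeAlong (φ : DQ.R →+* DualNumber (ResidueField 𝒪)) (hloc φ)) ∧
      coc h2 (rr φ) ∈ X ∧ ∀ σ, (rr φ σ).det = TrivSqZeroExt.inl (rbar σ).det := by
    intro φ hφ
    have hD := hbc φ (hloc φ) hφ
    exact ⟨hD, hX _ _ hD (hmat φ) (hlift φ)⟩
  have hzero : ∀ φ : DQ.R →ₐ[𝒪] DualNumber (ResidueField 𝒪), ¬ Function.Surjective φ →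
      coc h2 (rr φ) = 0 := by
    intro φ hφ
    exact coc_eq_zero_of_snd h2 _ (fun σ i j => h1 φ hφ _)
  have hmemX : ∀ φ, coc h2 (rr φ) ∈ X := by
    intro φ
    by_cases hφ : Function.Surjective φ
    · exact (h2' φ hφ).2.1
    · rw [hzero φ hφ]
      exact X.zero_mem
  -- (3)
  have h3 : ∀ φ φ' : DQ.R →ₐ[𝒪] DualNumber (ResidueField 𝒪), Function.Surjective φ →
      Function.Surjective φ' → coc h2 (rr φ) - coc h2 (rr φ') ∈ B1 (adRep rbar) → φ = φ' := by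
    intro φ φ' hφ hφ' hsub
    obtain ⟨M, hM⟩ := exists_conj_of_sub_mem_B1 h2 (hlift φ) (hlift φ') (h2' φ hφ).2.2
      (h2' φ' hφ').2.2 hsub
    have he : (DQ.ρ.baseChangeAlong (φ : DQ.R →+* DualNumber (ResidueField 𝒪)) (hloc φ)).IsEquiv
        (DQ.ρ.baseChangeAlong (φ' : DQ.R →+* DualNumber (ResidueField 𝒪)) (hloc φ')) :=
      ((hmat φ).conj M hM).isEquiv (hmat φ')
    have he' : (DQ.ρ.baseChangeAlong (φ' : DQ.R →+* DualNumber (ResidueField 𝒪)) (hloc φ')).IsEquiv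
        (DQ.ρ.baseChangeAlong (φ' : DQ.R →+* DualNumber (ResidueField 𝒪)) (hloc φ')) :=
      (hmat φ').isEquiv (hmat φ')
    have hres := (hmat φ').residual_isEquiv b hrbar (hlifts φ')
      (ResidueField.map (algebraMap 𝒪 (DualNumber (ResidueField 𝒪)))) (fun c => rfl)
    have huniq := (DQ.universal (DualNumber (ResidueField 𝒪)) residue_surjective_dualNumber _
      (h2' φ' hφ').1 hres).unique ⟨hloc φ, he⟩ ⟨hloc φ', he'⟩
    exact huniq
  -- (4)
  have h4 : ∀ φ : DQ.R →ₐ[𝒪] DualNumber (ResidueField 𝒪), Function.Surjective φ →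
      coc h2 (rr φ) ∉ B1 (adRep rbar) := by
    intro φ hφ hmem
    let φ₂ : DQ.R →ₐ[𝒪] DualNumber (ResidueField 𝒪) :=
      ((scaleHom (2 : ResidueField 𝒪)).restrictScalars 𝒪).comp φ
    have hφ₂ : Function.Surjective φ₂ := by
      intro z
      obtain ⟨y, hy⟩ := hφ (TrivSqZeroExt.inl z.fst + TrivSqZeroExt.inr (z.snd / 2))
      refine ⟨y, ?_⟩
      show scaleHom (2 : ResidueField 𝒪) (φ y) = z
      rw [hy]
      apply TrivSqZeroExt.ext
      · simp
      · simp [div_mul_cancel₀ _ h2]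
    have hrr : rr φ₂ = S53.mapRep (scaleHom (2 : ResidueField 𝒪) :
        DualNumber (ResidueField 𝒪) →+* DualNumber (ResidueField 𝒪)) (rr φ) := by
      ext σ i j <;> rfl
    have hc2 : coc h2 (rr φ₂) = (2 : ResidueField 𝒪) • coc h2 (rr φ) := by
      rw [hrr, coc_scale]
    have hsub : coc h2 (rr φ₂) - coc h2 (rr φ) ∈ B1 (adRep rbar) := by
      rw [hc2, two_smul, add_sub_cancel_right]
      exact hmem
    have heq := h3 φ₂ φ hφ₂ hφ hsub
    obtain ⟨y, hy⟩ := hφ (TrivSqZeroExt.inr 1)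
    have h5 : (φ₂ y).snd = 2 * (φ y).snd := snd_scaleHom _ _
    rw [heq, hy, TrivSqZeroExt.snd_inr] at h5
    have h6 : (1 : ResidueField 𝒪) = 0 := by linear_combination -h5
    exact one_ne_zero h6
  -- (5)
  have hkey : ∀ φ φ' : DQ.R →ₐ[𝒪] DualNumber (ResidueField 𝒪),
      coc h2 (rr φ) - coc h2 (rr φ') ∈ B1 (adRep rbar) → φ = φ' := by
    intro φ φ' hsub
    by_cases hφ : Function.Surjective φ
    · by_cases hφ' : Function.Surjective φ'
      · exact h3 φ φ' hφ hφ' hsub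
      · rw [hzero φ' hφ', sub_zero] at hsub
        exact absurd hsub (h4 φ hφ)
    · by_cases hφ' : Function.Surjective φ'
      · rw [hzero φ hφ, zero_sub] at hsub
        exact absurd ((Submodule.neg_mem_iff _).mp hsub) (h4 φ' hφ')
      · ext y
        · obtain ⟨c, hc⟩ := DQ.residue_surjective (residue DQ.R y)
          rw [fst_algHom_eq φ y c hc, fst_algHom_eq φ' y c hc]
        · rw [h1 φ hφ, h1 φ' hφ']
  let F : (DQ.R →ₐ[𝒪] DualNumber (ResidueField 𝒪)) × ↥(sl2 (ResidueField 𝒪)) → ↥X :=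
    fun x => ⟨coc h2 (rr x.1) + d01 (adRep rbar) x.2,
      X.add_mem (hmemX x.1) (hB (LinearMap.mem_range_self _ _))⟩
  have hF : Function.Injective F := by
    rintro ⟨φ, w⟩ ⟨φ', w'⟩ h
    have h5 : coc h2 (rr φ) + d01 (adRep rbar) w = coc h2 (rr φ') + d01 (adRep rbar) w' :=
      congrArg Subtype.val h
    have h6 : coc h2 (rr φ) - coc h2 (rr φ') = d01 (adRep rbar) (w' - w) := by
      rw [map_sub, sub_eq_sub_iff_add_eq_add, h5, add_comm]
    have h7 : φ = φ' := hkey φ φ' (h6 ▸ LinearMap.mem_range_self _ _)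
    subst h7
    rw [sub_self] at h6
    have h8 : w' - w = 0 := by
      apply h0
      intro g
      have := congrFun h6 g
      rw [CFT.d01_apply, Pi.zero_apply] at this
      exact (sub_eq_zero.mp this.symm)
    rw [sub_eq_zero.mp h8]
  rw [← Nat.card_prod]
  exact Nat.card_le_card_of_injective F hF

end Fermat.Agent.S56
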