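import Fermat.Agent.S56.Defs

/-!
# S56 / TD-DUAL : the test ring `k[ε] = DualNumber k`, `k = ResidueField 𝒪`  (easy; Mathlib + S53/TestAlgBasic).

The `𝒪`-algebra structure is the one found by instance search (`TrivSqZeroExt.algebra' 𝒪 k k`): `algebraMap 𝒪 k[ε] c = inl (residue 𝒪 c)` is `rfl`.
-/

set_option autoImplicit false

open IsLocalRing

namespace Fermat.Agent.S56

instance finite_dualNumber {k : Type} [Finite k] : Finite (DualNumber k) :=
  inferInstanceAs (Finite (k × k))

theorem mem_maximalIdeal_dualNumber {k : Type} [Field k] (x : DualNumber k) :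
    x ∈ maximalIdeal (DualNumber k) ↔ x.fst = 0 := by
  rw [mem_maximalIdeal, mem_nonunits_iff, TrivSqZeroExt.isUnit_iff_isUnit_fst, isUnit_iff_ne_zero,
    not_not]

theorem maximalIdeal_dualNumber_sq {k : Type} [Field k] :
    maximalIdeal (DualNumber k) ^ 2 = ⊥ := by
  rw [eq_bot_iff, pow_two, Ideal.mul_le]
  intro r hr s hs
  rw [mem_maximalIdeal_dualNumber] at hr hs
  rw [Ideal.mem_bot]
  ext <;> simp [hr, hs]

theorem isAdicComplete_of_pow_eq_bot {R : Type*} [CommRing R] (I : Ideal R) (n : ℕ)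
    (h : I ^ n = ⊥) : IsAdicComplete I R := by
  have hbot : (I ^ n • ⊤ : Submodule R R) = ⊥ := by
    rw [h]; simp
  refine { haus' := ?_, prec' := ?_ }
  · intro x hx
    have := hx n
    rw [hbot, SModEq.bot] at this
    exact this
  · intro f hf
    refine ⟨f n, fun m => ?_⟩
    rcases le_total m n with hmn | hmn
    · exact hf hmn
    · have := hf hmn
      rw [hbot, SModEq.bot] at this
      rw [this]

/-- `m² = 0` so `k[ε]` is complete -/
instance isAdicComplete_dualNumber {k : Type} [Field k] :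
    IsAdicComplete (maximalIdeal (DualNumber k)) (DualNumber k) :=
  isAdicComplete_of_pow_eq_bot _ 2 maximalIdeal_dualNumber_sq

section

variable {𝒪 : Type} [CommRing 𝒪] [IsLocalRing 𝒪]

lemma algebraMap_dualNumber (c : 𝒪) :
    algebraMap 𝒪 (DualNumber (ResidueField 𝒪)) c = TrivSqZeroExt.inl (residue 𝒪 c) := rfl

instance isLocalHom_algebraMap_dualNumber :
    IsLocalHom (algebraMap 𝒪 (DualNumber (ResidueField 𝒪))) := by
  constructor
  intro c hc
  rw [algebraMap_dualNumber, TrivSqZeroExt.isUnit_iff_isUnit_fst, TrivSqZeroExt.fst_inl] at hc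
  have hl : IsLocalHom (residue 𝒪) := inferInstance
  exact hl.map_nonunit c hc

theorem residue_surjective_dualNumber :
    Function.Surjective (residue (DualNumber (ResidueField 𝒪)) ∘
      algebraMap 𝒪 (DualNumber (ResidueField 𝒪))) := by
  intro y
  obtain ⟨b, rfl⟩ := residue_surjective y
  obtain ⟨c, hc⟩ := residue_surjective (TrivSqZeroExt.fst b)
  refine ⟨c, ?_⟩
  rw [Function.comp_apply, algebraMap_dualNumber, ← sub_eq_zero, ← map_sub,
    residue_eq_zero_iff, mem_maximalIdeal_dualNumber]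
  simp [hc]

/-- `S53.Lifts` over `k[ε]` is `IsLift` -/
theorem lifts_iff_isLift (rbar : GQ →* M2 (ResidueField 𝒪))
    (r₁ : GQ →* M2 (DualNumber (ResidueField 𝒪))) : S53.Lifts rbar r₁ ↔ IsLift rbar r₁ := by
  constructor
  · intro h σ
    ext i j
    obtain ⟨c, hc⟩ := residue_surjective (rbar σ i j)
    have := h σ i j c hc
    rw [mem_maximalIdeal_dualNumber, algebraMap_dualNumber, TrivSqZeroExt.fst_sub,
      TrivSqZeroExt.fst_inl, sub_eq_zero, hc] at this
    exact this
  · intro h σ i j c hc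
    rw [mem_maximalIdeal_dualNumber, algebraMap_dualNumber, TrivSqZeroExt.fst_sub,
      TrivSqZeroExt.fst_inl, sub_eq_zero, hc, ← h σ]
    rfl

/-- every matrix representation over `k[ε]` which is trivial on an open subgroup is `MatCont` and conversely -/
theorem matCont_dualNumber_iff {k : Type} [Field k] (r₁ : GQ →* M2 (DualNumber k)) :
    S53.MatCont (DualNumber k) r₁ ↔
      ∃ L : IntermediateField ℚ (AlgebraicClosure ℚ), FiniteDimensional ℚ L ∧
        ∀ σ : GQ, (∀ x ∈ L, σ x = x) → r₁ σ = 1 := by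
  constructor
  · intro h
    obtain ⟨L, hL, hL'⟩ := h 2
    refine ⟨L, hL, fun σ hσ => ?_⟩
    rw [← sub_eq_zero]
    refine Matrix.ext fun i j => ?_
    have := hL' σ hσ i j
    rw [maximalIdeal_dualNumber_sq, Ideal.mem_bot] at this
    exact this
  · rintro ⟨L, hL, hL'⟩ n
    refine ⟨L, hL, fun σ hσ i j => ?_⟩
    rw [hL' σ hσ, sub_self]
    exact Ideal.zero_mem _

end

/-- `ε ↦ a ε` -/
noncomputable def scaleHom {k : Type} [Field k] (a : k) : DualNumber k →ₐ[k] DualNumber k :=
  TrivSqZeroExt.map (a • (LinearMap.id : k →ₗ[k] k))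

@[simp] lemma fst_scaleHom {k : Type} [Field k] (a : k) (x : DualNumber k) :
    (scaleHom a x).fst = x.fst := by simp [scaleHom]

@[simp] lemma snd_scaleHom {k : Type} [Field k] (a : k) (x : DualNumber k) :
    (scaleHom a x).snd = a * x.snd := by simp [scaleHom]

end Fermat.Agent.S56
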